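/-
GATE-J / HINPUTS (helper4): the relative theory `F ⊂ F'` of function fields in the prelude API.

For `K` algebraically closed of characteristic zero, `F'/F` a finite extension of function fields
over `K` all of whose places have degree one:
* `norm_formula_fiber`      : `∑_{w | v} ord_w f = ord_v (N_{F'/F} f)`;
* `pushforwardNormFormula`  : the prelude `Divisor.PushforwardNormFormula K F F'`;
* `fundamentalIdentity`     : the prelude `FundamentalIdentity K F F'`.
The proof applies the T24 "AKLB" norm formula (`S24/Norm.lean`) to the discrete valuation ring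
`A = O_v` and its integral closure `B` in `F'`.
-/
import Mathlib
import Fermat.Prelude.Def_AlgebraicCurve_DivisorPushPull
import Fermat.Agent.S24.Norm
import Fermat.Agent.S24.PlaceBasic

set_option autoImplicit false
set_option linter.unusedSectionVars false

noncomputable section

namespace Fermat.Agent.GJ.HInputs

open AlgebraicCurve IsDedekindDomain IsDedekindDomain.HeightOneSpectrum WithZero
open Fermat.Agent.S24 Fermat.Agent.S24_helper6

variable {K F F' : Type*} [Field K] [Field F] [Field F'] [Algebra K F] [Algebra K F']
  [Algebra F F'] [IsScalarTower K F F']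

section Local

variable (v : Place K F)

/-- `F'` as an algebra over the valuation ring `O_v ⊂ F`. -/
@[reducible] def algOv : Algebra v.toValuationSubring F' :=
  ((algebraMap F F').comp (algebraMap v.toValuationSubring F)).toAlgebra

attribute [local instance 5] algOv

instance : IsScalarTower v.toValuationSubring F F' :=
  IsScalarTower.of_algebraMap_eq fun _ => rfl

example : IsDedekindDomain v.toValuationSubring := inferInstance
example : IsFractionRing v.toValuationSubring F := inferInstance

variable [FiniteDimensional F F'] [CharZero F]

/-- the integral closure of `O_v` in `F'` -/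
abbrev Bv : Subalgebra v.toValuationSubring F' := integralClosure v.toValuationSubring F'

example : IsIntegralClosure (Bv (F' := F') v) v.toValuationSubring F' := inferInstance

instance : IsDedekindDomain (Bv (F' := F') v) :=
  integralClosure.isDedekindDomain v.toValuationSubring F F'

instance : IsFractionRing (Bv (F' := F') v) F' :=
  integralClosure.isFractionRing_of_finite_extension F F'

instance : Module.Finite v.toValuationSubring (Bv (F' := F') v) :=
  IsIntegralClosure.finite v.toValuationSubring F F' (Bv (F' := F') v)

theorem algebraMap_Bv_injective :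
    Function.Injective (algebraMap v.toValuationSubring (Bv (F' := F') v)) := by
  intro a b hab
  have h := congrArg (algebraMap (Bv (F' := F') v) F') hab
  have h2 : algebraMap F F' (a : F) = algebraMap F F' (b : F) := h
  exact Subtype.ext ((algebraMap F F').injective h2)

instance : Module.IsTorsionFree v.toValuationSubring (Bv (F' := F') v) :=
  Module.isTorsionFree_iff_algebraMap_injective.mpr (algebraMap_Bv_injective v)

example : PerfectField (FractionRing v.toValuationSubring) := inferInstance

/-- `K → O_v → B` -/
@[reducible] def algKBv : Algebra K (Bv (F' := F') v) :=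
  ((algebraMap v.toValuationSubring (Bv (F' := F') v)).comp
    (algebraMap K v.toValuationSubring)).toAlgebra

attribute [local instance 5] algKBv

instance : IsScalarTower K (Bv (F' := F') v) F' :=
  IsScalarTower.of_algebraMap_eq fun a => by
    show algebraMap K F' a = algebraMap F F' (algebraMap K F a)
    rw [← IsScalarTower.algebraMap_apply]

/-! ### the dictionary `fiber v ↔ height-one primes of B` -/

/-- a place of `F'` over `v` contains `B` -/
theorem containsB_of_restrict_eq {w : Place K F'} (hw : w.restrict F = v) :
    ContainsB (Bv (F' := F') v) w := by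
  apply Norm.containsB_of (A := v.toValuationSubring)
  intro a
  have h : (a : F) ∈ (w.restrict F).toValuationSubring := by rw [hw]; exact a.2
  exact h

/-- a place of `F'` containing `B` lies over `v` -/
theorem restrict_eq_of_containsB {w : Place K F'} (hw : ContainsB (Bv (F' := F') v) w) :
    w.restrict F = v := by
  symm
  apply PlaceB.eq_of_le
  intro a ha
  show algebraMap F F' a ∈ w.toValuationSubring
  exact hw (algebraMap v.toValuationSubring (Bv (F' := F') v) ⟨a, ha⟩)

/-! ### the norm formula over one place -/

variable [IsAlgClosed K] [HasPrincipalDivisors K F']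

theorem norm_formula_fiber (hdeg : v.deg = 1) (f : F') (hf : f ≠ 0) :
    ∑ w ∈ v.fiber F', w.ord f = v.ord (Algebra.norm F f) := by
  classical
  obtain ⟨π, hπ⟩ := IsDiscreteValuationRing.exists_irreducible v.toValuationSubring
  have hπ0 : π ≠ 0 := hπ.ne_zero
  have hmaxeq : IsLocalRing.maximalIdeal v.toValuationSubring = Ideal.span {π} :=
    hπ.maximalIdeal_eq
  have hmax : (Ideal.span {π}).IsMaximal := hmaxeq ▸ IsLocalRing.maximalIdeal.isMaximal _
  -- the residue field of `v` is `K`
  have hK : Function.Surjective (algebraMap K (v.toValuationSubring ⧸ Ideal.span {π})) := by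
    intro y
    obtain ⟨a, rfl⟩ := Ideal.Quotient.mk_surjective y
    have h1 : Module.finrank K v.ResidueField = 1 := hdeg
    obtain ⟨c, hc⟩ := (finrank_eq_one_iff_of_nonzero' (1 : v.ResidueField) one_ne_zero).mp h1
      (IsLocalRing.residue _ a)
    refine ⟨c, ?_⟩
    have h2 : IsLocalRing.residue v.toValuationSubring (algebraMap K v.toValuationSubring c)
        = IsLocalRing.residue _ a := by
      rw [← hc, Algebra.smul_def, mul_one]
      rfl
    have h3 : algebraMap K v.toValuationSubring c - a ∈
        IsLocalRing.maximalIdeal v.toValuationSubring := by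
      rw [← Ideal.Quotient.eq]
      exact h2
    rw [hmaxeq] at h3
    have h4 := (Ideal.Quotient.eq (I := Ideal.span {π})).mpr h3
    rw [← h4]
    rfl
  have hres : ∀ (Q : Ideal (Bv (F' := F') v)) [Q.IsMaximal] [Q.LiesOver (Ideal.span {π})],
      Module.finrank (v.toValuationSubring ⧸ Ideal.span {π}) ((Bv (F' := F') v) ⧸ Q) = 1 :=
    fun Q _ _ => Norm.finrank_quotient_eq_one (Ideal.span {π}) hK Q
  have hb₀ : algebraMap v.toValuationSubring (Bv (F' := F') v) π ≠ 0 :=
    (map_ne_zero_iff _ (algebraMap_Bv_injective v)).mpr hπ0
  have := Norm.finite_primesAt hb₀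
  have : Fintype (Norm.PrimesAt (algebraMap v.toValuationSubring (Bv (F' := F') v) π)) :=
    Fintype.ofFinite _
  have key := Norm.neg_log_valuation_norm (A := v.toValuationSubring) (k := F) (F := F')
    (B := Bv (F' := F') v) π hπ0 hres f hf
  -- the left-hand side is `ord_v`
  have hP : Norm.primeOfGen π hπ0 = v.heightOneSpectrum := by
    apply HeightOneSpectrum.ext
    show Ideal.span {π} = IsLocalRing.maximalIdeal v.toValuationSubring
    exact hmaxeq.symm
  have hL : v.ord (Algebra.norm F f)
      = -(log ((Norm.primeOfGen π hπ0).valuation F (Algebra.norm F f))) := by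
    rw [hP]; rfl
  rw [hL, key]
  -- the right-hand side is the sum over the fibre
  have hordπ : v.ord (π : F) = 1 := v.ord_coe_irreducible hπ
  symm
  refine Finset.sum_bij (fun P _ => placeOfPrime (K := K) (F := F') P.1) ?_ ?_ ?_ ?_
  · intro P _
    rw [Place.mem_fiber]
    exact restrict_eq_of_containsB v (containsB_placeOfPrime P.1)
  · intro P _ P' _ h
    apply Subtype.ext
    have h1 := primeOfPlace_placeOfPrime (K := K) (F := F') P.1
    have h2 := primeOfPlace_placeOfPrime (K := K) (F := F') P'.1
    rw [← h1, ← h2]
    congr 1
  · intro w hw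
    rw [Place.mem_fiber] at hw
    have hB := containsB_of_restrict_eq v hw
    have hmem : algebraMap v.toValuationSubring (Bv (F' := F') v) π ∈
        (primeOfPlace w hB).asIdeal := by
      rw [← placeOfPrime_ord_algebraMap_pos_iff (K := K) (F := F') _ hb₀,
        placeOfPrime_primeOfPlace w hB]
      show 0 < w.ord (algebraMap F F' (π : F))
      rw [w.ord_restrict, hw, hordπ, mul_one]
      exact_mod_cast w.ramificationIndex_pos (F := F)
    exact ⟨⟨primeOfPlace w hB, hmem⟩, Finset.mem_univ _, placeOfPrime_primeOfPlace w hB⟩
  · intro P _
    exact (placeOfPrime_ord (K := K) (F := F') P.1 f).symm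

end Local

/-! ### the two prelude statements -/

section Global

variable [FiniteDimensional F F'] [CharZero K] [IsAlgClosed K] [HasPrincipalDivisors K F']

/-- **Norm formula** (prelude `PushforwardNormFormula`) for a finite extension of function fields
over an algebraically closed field of characteristic zero. -/
theorem pushforwardNormFormula (hdeg : ∀ v : Place K F, v.deg = 1)
    (hdeg' : ∀ w : Place K F', w.deg = 1) :
    Divisor.PushforwardNormFormula K F F' := by
  classical
  have : CharZero F := charZero_of_injective_algebraMap (algebraMap K F).injective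
  intro f hf D hD v
  rw [Divisor.pushforward_apply, ← norm_formula_fiber v (hdeg v) f hf]
  have hin : ∀ w : Place K F', w.inertiaDeg F = 1 := by
    intro w
    have h := w.deg_restrict_mul_inertiaDeg (F := F)
    rw [hdeg (w.restrict F), hdeg' w, one_mul] at h
    exact h
  have h1 : ∀ w ∈ D.support,
      (if w.restrict F = v then D w * (w.inertiaDeg F : ℤ) else 0)
        = if w ∈ v.fiber F' then w.ord f else 0 := by
    intro w _
    simp only [Place.mem_fiber, hin w, hD w, Nat.cast_one, mul_one]
  rw [Finset.sum_congr rfl h1, ← Finset.sum_filter]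
  apply Finset.sum_subset
  · intro w hw
    exact (Finset.mem_filter.mp hw).2
  · intro w hw hnot
    by_contra hne
    apply hnot
    rw [Finset.mem_filter]
    refine ⟨?_, hw⟩
    rw [Finsupp.mem_support_iff, hD w]
    exact hne

/-- **Fundamental identity** `∑ e(w|v) deg w = [F' : F] deg v`. -/
theorem fundamentalIdentity (hdeg : ∀ v : Place K F, v.deg = 1)
    (hdeg' : ∀ w : Place K F', w.deg = 1) :
    FundamentalIdentity K F F' := by
  classical
  have : CharZero F := charZero_of_injective_algebraMap (algebraMap K F).injective
  refine ⟨fun v => ?_⟩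
  obtain ⟨π, hπ⟩ := IsDiscreteValuationRing.exists_irreducible v.toValuationSubring
  have hπ0 : (π : F) ≠ 0 := by
    simpa [ne_eq, ZeroMemClass.coe_eq_zero] using hπ.ne_zero
  have hordπ : v.ord (π : F) = 1 := v.ord_coe_irreducible hπ
  have h := norm_formula_fiber (F' := F') v (hdeg v) (algebraMap F F' (π : F))
    ((map_ne_zero_iff _ (algebraMap F F').injective).mpr hπ0)
  rw [Algebra.norm_algebraMap, ← zpow_natCast, v.ord_zpow, hordπ, mul_one] at h
  rw [hdeg v, Nat.cast_one, mul_one, ← h]
  refine Finset.sum_congr rfl fun w hw => ?_
  rw [Place.mem_fiber] at hw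
  rw [hdeg' w, Nat.cast_one, mul_one, w.ord_restrict, hw, hordπ, mul_one]

end Global

end Fermat.Agent.GJ.HInputs
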