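/-
GATE-J / HINPUTS (helper4): the prelude hypothesis bundle `ModularCurve.HeckeInputsAlong L N ℓ`
holds, so the prelude Hecke operator `heckeOperatorAlong L N ℓ` (hence `heckeOperatorBar N ℓ`)
is the genuine correspondence `α_* ∘ β^*` and not the zero map.

* `finiteAlong_of_gen`, `isIntegral_of_finiteAlong` : generalities on `F →ₐ[K] F'`;
* `heckeInputsAlong_of_isGen` : for `L` algebraically closed (char. 0), given that `j` is a
  separating generator of the function fields of level `N` and `N ℓ` over `L`;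
* `heckeInputsAlong_bar` : the case `L = ℚ̄` (T24 provides the generator statement).
-/
import Mathlib
import Fermat.Prelude.Def_ModularCurve_HeckeModule
import Fermat.Agent.GJ.HInputs.Relative
import Fermat.Agent.S24.DegOne
import Fermat.Agent.S24.PrincipalGen
import Fermat.Agent.S24_helper62.CuspFibre

set_option autoImplicit false
set_option linter.unusedSectionVars false

noncomputable section

namespace Fermat.Agent.GJ.HInputs

open AlgebraicCurve IntermediateField ModularCurve
open Fermat.Agent.S24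

/-! ### generalities on `F →ₐ[K] F'` -/

section Along

variable {K F F' : Type*} [Field K] [Field F] [Field F'] [Algebra K F] [Algebra K F']

/-- If `F'` is finite over `K(φ x)` then it is finite over `F` (along `φ`). -/
theorem finiteAlong_of_gen (φ : F →ₐ[K] F') (x : F) [hfd : FiniteDimensional K⟮φ x⟯ F'] :
    FiniteAlong K φ := by
  let _ := algebraAlong φ
  show Module.Finite F F'
  have hle : K⟮φ x⟯ ≤ φ.fieldRange := by
    rw [adjoin_simple_le_iff]
    exact ⟨x, rfl⟩
  obtain ⟨s, hs⟩ := (Module.finite_def.mp hfd)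
  refine ⟨⟨s, ?_⟩⟩
  rw [eq_top_iff]
  rintro y -
  have hy : y ∈ Submodule.span K⟮φ x⟯ (s : Set F') := by rw [hs]; trivial
  induction hy using Submodule.span_induction with
  | mem z hz => exact Submodule.subset_span hz
  | zero => exact Submodule.zero_mem _
  | add a b _ _ ha hb => exact Submodule.add_mem _ ha hb
  | smul c z _ hz =>
    obtain ⟨d, hd⟩ := hle c.2
    have : c • z = d • z := by
      rw [Algebra.smul_def, Algebra.smul_def]
      congr 1
      exact hd.symm
    rw [this]
    exact Submodule.smul_mem _ d hz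

theorem isIntegral_of_finiteAlong (φ : F →ₐ[K] F') (h : FiniteAlong K φ) :
    φ.toRingHom.IsIntegral := by
  let _ := algebraAlong φ
  have : Module.Finite F F' := h
  have h2 : Algebra.IsIntegral F F' := Algebra.IsIntegral.of_finite F F'
  exact algebraMap_isIntegral_iff.mpr h2

end Along

/-! ### the modular tower -/

section Modular

variable (L : Type*) [Field L] [Algebra ℚ L]

/-- `j` as an element of the function field of level `M` over `L`. -/
def jGenL (M : ℕ) [NeZero M] : laurentBaseChange L (modularFunctionFieldFull M) :=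
  ⟨coeffEmb L jq, coeffEmb_mem_laurentBaseChange L (by
    have h := jqd_mem_full M (one_dvd M)
    rwa [qExpand_one_apply] at h)⟩

@[simp] theorem coe_jGenL (M : ℕ) [NeZero M] :
    ((jGenL L M : laurentBaseChange L (modularFunctionFieldFull M)) : LaurentSeries L)
      = coeffEmb L jq := rfl

variable {L}
variable [IsAlgClosed L] (N ℓ : ℕ) [NeZero N] [NeZero ℓ]

/-- **The Hecke inputs hold**, given that `j` is a separating generator in levels `N` and `N ℓ`. -/
theorem heckeInputsAlong_of_isGen (hN : IsGen L (jGenL L N)) (hNℓ : IsGen L (jGenL L (N * ℓ))) :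
    HeckeInputsAlong L N ℓ := by
  have hcz : CharZero L := algebraRat.charZero L
  have hP : HasPrincipalDivisors L (laurentBaseChange L (modularFunctionFieldFull (N * ℓ))) :=
    Principal.hasPrincipalDivisors_of_isGen (jGenL L (N * ℓ))
  have hdeg : ∀ v : Place L (laurentBaseChange L (modularFunctionFieldFull N)), v.deg = 1 :=
    fun v => PlaceB.deg_eq_one v (jGenL L N)
  have hdeg' : ∀ w : Place L (laurentBaseChange L (modularFunctionFieldFull (N * ℓ))), w.deg = 1 :=
    fun w => PlaceB.deg_eq_one w (jGenL L (N * ℓ))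
  -- `α`
  have hαj : heckeAlphaBar L N ℓ (jGenL L N) = jGenL L (N * ℓ) := Subtype.ext rfl
  have hfdα : FiniteDimensional L⟮heckeAlphaBar L N ℓ (jGenL L N)⟯
      (laurentBaseChange L (modularFunctionFieldFull (N * ℓ))) := by
    rw [hαj]; exact hNℓ.finite
  have hfinα : FiniteAlong L (heckeAlphaBar L N ℓ) := finiteAlong_of_gen _ (jGenL L N)
  have hα : HeckeAlphaBarIntegral L N ℓ := isIntegral_of_finiteAlong _ hfinα
  -- `β`
  have htrβ : Transcendental L (heckeBetaBar L N ℓ (jGenL L N)) := by
    intro halg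
    exact hN.transcendental
      ((isAlgebraic_algHom_iff (heckeBetaBar L N ℓ) (heckeBetaBar L N ℓ).injective).mp halg)
  have hgenβ : IsGen L (heckeBetaBar L N ℓ (jGenL L N)) :=
    IsGen.of_transcendental (jGenL L (N * ℓ)) htrβ
  have hfdβ : FiniteDimensional L⟮heckeBetaBar L N ℓ (jGenL L N)⟯
      (laurentBaseChange L (modularFunctionFieldFull (N * ℓ))) := hgenβ.finite
  have hfinβ : FiniteAlong L (heckeBetaBar L N ℓ) := finiteAlong_of_gen _ (jGenL L N)
  have hβ : HeckeBetaBarIntegral L N ℓ := isIntegral_of_finiteAlong _ hfinβ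
  -- the two identities
  have hFI : FundamentalIdentityAlong L (heckeBetaBar L N ℓ) hβ :=
    @fundamentalIdentity L _ _ _ _ _ _ _ (algebraAlong (heckeBetaBar L N ℓ))
      (isScalarTower_along (heckeBetaBar L N ℓ)) hfinβ hcz _ hP hdeg hdeg'
  have hNα : NormFormulaAlong L (heckeAlphaBar L N ℓ) hfinα :=
    @pushforwardNormFormula L _ _ _ _ _ _ _ (algebraAlong (heckeAlphaBar L N ℓ))
      (isScalarTower_along (heckeAlphaBar L N ℓ)) hfinα hcz _ hP hdeg hdeg'
  exact ⟨hα, hβ, hP, hfinα, hFI, hNα⟩

end Modular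

/-! ### the case `L = ℚ̄` -/

section Bar

variable (N ℓ : ℕ) [NeZero N] [NeZero ℓ]

theorem jGenL_bar_eq (M : ℕ) [NeZero M] : jGenL Kbar M = jF M :=
  Subtype.ext (coe_jF M).symm

theorem isGen_jGenL_bar (M : ℕ) [NeZero M] : IsGen Kbar (jGenL Kbar M) := by
  rw [jGenL_bar_eq]
  exact Fermat.Agent.S24_helper62.isGen_jF M

/-- **`HeckeInputsAlong ℚ̄ N ℓ` holds** for all `N, ℓ ≥ 1`. -/
theorem heckeInputsAlong_bar : HeckeInputsAlong (AlgebraicClosure ℚ) N ℓ :=
  heckeInputsAlong_of_isGen N ℓ (isGen_jGenL_bar N) (isGen_jGenL_bar (N * ℓ))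

/-- the prelude operator on `J₀(N)(ℚ̄)` is the genuine correspondence `α_* ∘ β^*` -/
theorem exists_heckeOperatorBar_eq (p : Nat.Primes) :
    haveI : NeZero (p : ℕ) := ⟨p.2.ne_zero⟩
    ∃ (hα : HeckeAlphaBarIntegral (AlgebraicClosure ℚ) N p)
      (hβ : HeckeBetaBarIntegral (AlgebraicClosure ℚ) N p)
      (_ : HasPrincipalDivisors (AlgebraicClosure ℚ) (modularFunctionFieldBar (N * p)))
      (hfin : FiniteAlong (AlgebraicClosure ℚ) (heckeAlphaBar (AlgebraicClosure ℚ) N p))
      (hFI : FundamentalIdentityAlong (AlgebraicClosure ℚ)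
        (heckeBetaBar (AlgebraicClosure ℚ) N p) hβ)
      (hN : NormFormulaAlong (AlgebraicClosure ℚ) (heckeAlphaBar (AlgebraicClosure ℚ) N p) hfin),
      ∀ x : JZero N, heckeOperatorBar N p x = heckePic0Bar hα hβ hFI hfin hN x := by
  have : NeZero (p : ℕ) := ⟨p.2.ne_zero⟩
  obtain ⟨hα, hβ, hP, hfin, hFI, hN⟩ := heckeInputsAlong_bar N (p : ℕ)
  refine ⟨hα, hβ, hP, hfin, hFI, hN, fun x => ?_⟩
  rw [heckeOperatorBar_apply, heckeOperatorAlong_eq hα hβ hFI hfin hN]

end Bar

end Fermat.Agent.GJ.HInputs
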