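/-
GATE-J / HINPUTS (helper4): `ord_norm` in "along" form and the divisor side (HN2) of the Hecke norm.

* `normAlong ψ x`            : `N_{F'/F} x` for the algebra structure `algebraAlong ψ`;
* `ord_normAlong`            : `ord_P (N_ψ x) = ∑_{Q | P} ord_Q x`  (fibre taken along `ψ`);
* `dvd_ord_normAlong`        : if `p ∣ ord_P u` for all places `P` of `F` then
                               `p ∣ ord_P (N_ψ (φ u))` for all `P`  (any two `φ ψ : F →ₐ[K] F'`);
* `dvd_ord_norm_beta`        : the case `φ = heckeBetaBar`, `ψ = heckeAlphaBar` over `ℚ̄`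
                               (the Hecke norm preserves `p ∣ div`).
-/
import Mathlib
import Fermat.Agent.GJ.HInputs.Modular

set_option autoImplicit false
set_option linter.unusedSectionVars false

noncomputable section

namespace Fermat.Agent.GJ.HInputs

open AlgebraicCurve IntermediateField ModularCurve
open Fermat.Agent.S24

section General

variable {K F F' : Type*} [Field K] [Field F] [Field F'] [Algebra K F] [Algebra K F']

/-- the norm `F' → F` for the algebra structure given by `ψ : F →ₐ[K] F'` -/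
def normAlong (ψ : F →ₐ[K] F') (x : F') : F :=
  @Algebra.norm F F' _ _ (algebraAlong ψ) x

theorem normAlong_def (ψ : F →ₐ[K] F') (x : F') :
    normAlong ψ x = @Algebra.norm F F' _ _ (algebraAlong ψ) x := rfl

/-- the fibre of a place along `ψ` -/
def fiberAlong [HasPrincipalDivisors K F'] (ψ : F →ₐ[K] F') (hψ : ψ.toRingHom.IsIntegral)
    (P : Place K F) : Finset (Place K F') :=
  @Place.fiber K F F' _ _ _ _ _ (algebraAlong ψ) (isScalarTower_along ψ)
    (isIntegral_along ψ hψ) _ P

/-- pull-back of orders along an algebra structure -/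
theorem dvd_ord_algebraMap [Algebra F F'] [IsScalarTower K F F'] [Algebra.IsIntegral F F']
    (p : ℤ) (u : F) (hu : ∀ P : Place K F, p ∣ P.ord u) (Q : Place K F') :
    p ∣ Q.ord (algebraMap F F' u) := by
  rw [Q.ord_restrict]
  exact Dvd.dvd.mul_left (hu _) _

variable [IsAlgClosed K] [CharZero K] [HasPrincipalDivisors K F']

/-- **`ord_norm`**: `ord_P (N_ψ x) = ∑_{Q ∣ P} ord_Q x`. -/
theorem ord_normAlong (ψ : F →ₐ[K] F') (hψ : ψ.toRingHom.IsIntegral) (hfin : FiniteAlong K ψ)
    (P : Place K F) (hdeg : P.deg = 1) (x : F') (hx : x ≠ 0) :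
    P.ord (normAlong ψ x) = ∑ Q ∈ fiberAlong ψ hψ P, Q.ord x := by
  have hcz : CharZero F := charZero_of_injective_algebraMap (algebraMap K F).injective
  exact (@norm_formula_fiber K F F' _ _ _ _ _ (algebraAlong ψ) (isScalarTower_along ψ) P hfin
    hcz _ _ hdeg x hx).symm

/-- **HN2, general form**: the norm of a pulled-back function with `p`-divisible divisor has
`p`-divisible divisor. -/
theorem dvd_ord_normAlong (φ ψ : F →ₐ[K] F') (hφ : φ.toRingHom.IsIntegral)
    (hψ : ψ.toRingHom.IsIntegral) (hfin : FiniteAlong K ψ)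
    (hdeg : ∀ P : Place K F, P.deg = 1) (p : ℤ) (u : F)
    (hu : ∀ P : Place K F, p ∣ P.ord u) (P : Place K F) :
    p ∣ P.ord (normAlong ψ (φ u)) := by
  rcases eq_or_ne u 0 with rfl | hu0
  · have h0 : normAlong ψ (φ (0 : F)) = 0 := by
      rw [map_zero, normAlong_def]
      let _ := algebraAlong ψ
      have : Module.Finite F F' := hfin
      exact Algebra.norm_zero
    rw [h0, Place.ord_zero]
    exact dvd_zero p
  have hx : φ u ≠ 0 := (map_ne_zero_iff _ φ.injective).mpr hu0
  rw [ord_normAlong ψ hψ hfin P (hdeg P) (φ u) hx]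
  refine Finset.dvd_sum fun Q _ => ?_
  exact @dvd_ord_algebraMap K F F' _ _ _ _ _ (algebraAlong φ) (isScalarTower_along φ)
    (isIntegral_along φ hφ) p u hu Q

end General

/-! ### the Hecke norm over `ℚ̄` -/

section Bar

variable (N ℓ : ℕ) [NeZero N] [NeZero ℓ]

/-- **HN2**: `u ↦ N_{F_{Nℓ}/F_N}(u(q^ℓ))` preserves "`p` divides the divisor". -/
theorem dvd_ord_norm_beta (p : ℤ) (u : FN N)
    (hu : ∀ P : Place Kbar (FN N), p ∣ P.ord u) (P : Place Kbar (FN N)) :
    p ∣ P.ord (normAlong (heckeAlphaBar Kbar N ℓ) (heckeBetaBar Kbar N ℓ u)) := by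
  obtain ⟨hα, hβ, hP, hfin, -, -⟩ := heckeInputsAlong_bar N ℓ
  exact dvd_ord_normAlong (heckeBetaBar Kbar N ℓ) (heckeAlphaBar Kbar N ℓ) hβ hα hfin
    (fun v => PlaceB.deg_eq_one v (jF N) (hx := Fermat.Agent.S24_helper62.isGen_jF N)) p u hu P

end Bar

end Fermat.Agent.GJ.HInputs
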