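/-
GATE-J / HINPUTS (helper4): the Hecke correspondence on PRINCIPAL divisors.

For `φ ψ : F →ₐ[K] F'` (pull back along `φ`, push forward along `ψ`) and `y ∈ Fˣ`:
`correspondence φ ψ (div y) = div (N_ψ (φ y))`.
Specialised to `φ = heckeBetaBar`, `ψ = heckeAlphaBar` over `ℚ̄`:
`T_ℓ (div y) = div (Norm_{F_{Nℓ}/F_N} (y(q^ℓ)))`  (`correspondence_div_bar`).
-/
import Mathlib
import Fermat.Agent.GJ.HInputs.OrdNorm

set_option autoImplicit false
set_option linter.unusedSectionVars false

noncomputable section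

namespace Fermat.Agent.GJ.HInputs

open AlgebraicCurve IntermediateField ModularCurve
open Fermat.Agent.S24

section General

variable {K F F' : Type*} [Field K] [Field F] [Field F'] [Algebra K F] [Algebra K F']
  [HasPrincipalDivisors K F']

/-- pull-back of a principal divisor along `φ` -/
theorem pullbackAlong_div (φ : F →ₐ[K] F') (hφ : φ.toRingHom.IsIntegral) (y : F)
    (D : Divisor K F) (hD : ∀ v : Place K F, D v = v.ord y) (w : Place K F') :
    Divisor.pullbackAlong φ hφ D w = w.ord (φ y) :=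
  @Divisor.pullback_apply_eq_ord K F F' _ _ _ _ _ (algebraAlong φ) (isScalarTower_along φ)
    (isIntegral_along φ hφ) _ y D hD w

/-- **the correspondence on a principal divisor** -/
theorem correspondence_div (φ ψ : F →ₐ[K] F') (hφ : φ.toRingHom.IsIntegral)
    (hψ : ψ.toRingHom.IsIntegral) (hfin : FiniteAlong K ψ) (hN : NormFormulaAlong K ψ hfin)
    (y : F) (hy : y ≠ 0) (D : Divisor K F) (hD : ∀ v : Place K F, D v = v.ord y)
    (v : Place K F) :
    Divisor.correspondence φ ψ hφ hψ D v = v.ord (normAlong ψ (φ y)) := by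
  rw [Divisor.correspondence_apply]
  have hy' : φ y ≠ 0 := (map_ne_zero_iff _ φ.injective).mpr hy
  exact hN (φ y) hy' (Divisor.pullbackAlong φ hφ D) (pullbackAlong_div φ hφ y D hD) v

end General

section Bar

variable (N ℓ : ℕ) [NeZero N] [NeZero ℓ]

/-- **`T_ℓ (div y) = div (Norm (y(q^ℓ)))`** on `X₀(N)` over `ℚ̄`, for the genuine prelude
correspondence (`heckeDivBar`). -/
theorem correspondence_div_bar (hα : HeckeAlphaBarIntegral Kbar N ℓ)
    (hβ : HeckeBetaBarIntegral Kbar N ℓ)
    [HasPrincipalDivisors Kbar (laurentBaseChange Kbar (modularFunctionFieldFull (N * ℓ)))]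
    (y : FN N) (hy : y ≠ 0) (D : Divisor Kbar (FN N))
    (hD : ∀ v : Place Kbar (FN N), D v = v.ord y) (v : Place Kbar (FN N)) :
    heckeDivBar hα hβ D v
      = v.ord (normAlong (heckeAlphaBar Kbar N ℓ) (heckeBetaBar Kbar N ℓ y)) := by
  obtain ⟨-, -, -, hfin, -, hN⟩ := heckeInputsAlong_bar N ℓ
  exact correspondence_div (heckeBetaBar Kbar N ℓ) (heckeAlphaBar Kbar N ℓ) hβ hα hfin hN y hy D
    hD v

end Bar

end Fermat.Agent.GJ.HInputs
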